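/-
T1B (cl) = KUM-U2 TRANSPOSED (helper78), part (A): the analytic side of the TRANSPOSED correspondence
`U_q = β_* α^*` (Prelude `heckePic0BarTranspose`) at a prime `q ∣ N`.

* the family `sigmaT j = (· ∘ β_j) ∘ anBar (N q)`, `β_j = !![1, j; 0, q]` (`z ↦ (z + j) / q`), of the
  `q` embeddings of `F̄_{Nq}` over `β (F̄_N)`:  `sigmaT j (β f) = an f`,  `sigmaT j (α f) = (an f) ∘ β_j`;
* injectivity of `j ↦ sigmaT j` (through the `j`-function: `j ((z + a) / q) = j ((z + b) / q)` for all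
  `z` forces `a = b` in `ZMod q`);
* `setupT`: the instance of `KummerHeckeAbs19.Setup` for the pair `(β, α)` with index set `ZMod q`,
  permutation `UqOp28.permU` and cocycle `UqOp28.cocU`.
-/
import Fermat.Agent.ES.HEQ.KummerHeckeMain19
import Fermat.Agent.ES.LR.UqOp28
import Fermat.Agent.X0.JInjective
import Fermat.Agent.T1B.KumU6.Inputs

set_option autoImplicit false
set_option linter.style.haveILetI false
set_option linter.unusedSectionVars false

open UpperHalfPlane hiding I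
open scoped Manifold MatrixGroups
open CongruenceSubgroup AlgebraicCurve

noncomputable section

namespace Fermat.Agent.T1B.KumU78.Analytic

open Fermat.Agent.X0 Fermat.Agent.X0.Analytic Fermat.Agent.X0.SurjPoint Fermat.Agent.ES.KUM
open Fermat.Agent.ES.HEQ.DoubleCoset27 Fermat.Agent.ES.HEQ.BetaMer19
open Fermat.Agent.ES.HEQ.QExpMer19 Fermat.Agent.ES.HEQ.RepGamma19
open Fermat.Agent.ES.HEQ.RealBar19 Fermat.Agent.ES.HEQ.KummerHeckeAbs19
open Fermat.Agent.ES.HEQ.KummerHeckeMain19 ModularCurve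
open Fermat.Agent.ES.LR.UqOp28

variable {N q : ℕ} [hq : Fact q.Prime]

/-! ### The action of `β_j` on `ℍ` -/

/-- `β_j • z = (z + j) / q`. -/
theorem coe_glBeta_some_smul (j : ZMod q) (z : ℍ) :
    ((glBeta q (some j) • z : ℍ) : ℂ) = ((z : ℂ) + (j.val : ℂ)) / (q : ℂ) := by
  rw [UpperHalfPlane.coe_smul_of_det_pos (det_glBeta_pos (some j))]
  simp [UpperHalfPlane.num, UpperHalfPlane.denom, glBeta_some,
    ModularForm.val_heckeMatrix hq.out.ne_zero, -ZMod.natCast_val]

/-- `Im (β_j • z) = Im z / q`. -/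
theorem im_glBeta_some_smul (j : ZMod q) (z : ℍ) :
    (glBeta q (some j) • z : ℍ).im = z.im / (q : ℝ) := by
  have h := congrArg Complex.im (coe_glBeta_some_smul j z)
  rw [UpperHalfPlane.coe_im] at h
  rw [h]
  have e : ((z : ℂ) + (j.val : ℂ)) / (q : ℂ) = (((z : ℂ) + ((j.val : ℝ) : ℂ)) / ((q : ℝ) : ℂ)) := by
    push_cast; rfl
  rw [e, Complex.div_ofReal_im]
  simp

/-- `β_∞ • (β_j • z) = T^j • z` (`β_∞ β_j = q T^j`). -/
theorem glBeta_none_smul_some (j : ZMod q) (z : ℍ) :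
    glBeta q none • (glBeta q (some j) • z) = (ModularGroup.T ^ (j.val : ℤ)) • z := by
  haveI : NeZero q := ⟨hq.out.ne_zero⟩
  have hq0 : (q : ℂ) ≠ 0 := by exact_mod_cast hq.out.ne_zero
  apply UpperHalfPlane.ext
  rw [glBeta_none_smul, coe_scaleH, coe_glBeta_some_smul, ModularGroup.coe_T_zpow_smul_eq]
  push_cast
  field_simp

/-- the translations belong to every `Γ₀(N)`. -/
theorem T_zpow_mem_Gamma0 (N : ℕ) (n : ℤ) : ModularGroup.T ^ n ∈ Gamma0 N := by
  rw [Gamma0_mem, ModularGroup.coe_T_zpow]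
  simp

/-! ### `(h ∘ β_∞) ∘ β_j = h ∘ T^j` in `MerH` -/

theorem betaMer_some_betaMer_none (j : ZMod q) (h : MerH) :
    betaMer q (some j) (betaMer q none h) = slMer (ModularGroup.T ^ (j.val : ℤ)) h := by
  obtain ⟨a, b, -, rfl⟩ := exists_div_MerH h
  unfold betaMer
  rw [glMer_div, glMer_div, slMer_div]
  have key : ∀ c : HolH, glHom (glBeta q (some j)) (det_glBeta_pos (some j))
      (glHom (glBeta q none) (det_glBeta_pos none) c) =
        compSLHom (ModularGroup.T ^ (j.val : ℤ)) c := by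
    intro c
    apply Subtype.ext
    funext z
    show c.1 (glBeta q none • (glBeta q (some j) • z)) = c.1 ((ModularGroup.T ^ (j.val : ℤ)) • z)
    rw [glBeta_none_smul_some]
  rw [key a, key b]

/-! ### The embeddings of `F̄_{Nq}` over `β (F̄_N)` -/

variable [NeZero N]

/-- the complete family of embeddings `F̄_{Nq} → MerH` over `an ∘ β⁻¹`. -/
def sigmaT (N q : ℕ) [NeZero N] [Fact q.Prime] (j : ZMod q) : FF (N * q) →+* MerH :=
  (betaMer q (some j)).comp (anBar (N * q))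

theorem sigmaT_apply (j : ZMod q) (y : FF (N * q)) :
    sigmaT N q j y = betaMer q (some j) (anBar (N * q) y) := rfl

/-- `σ_j ∘ β = an`. -/
theorem sigmaT_beta (j : ZMod q) (f : FF N) :
    sigmaT N q j (heckeBetaBar Kbar N q f) = anBar N f := by
  rw [sigmaT_apply, anBar_beta, betaMer_some_betaMer_none,
    slMer_anBar_of_mem N _ (T_zpow_mem_Gamma0 N _)]

/-- `σ_j ∘ α = (· ∘ β_j) ∘ an`. -/
theorem sigmaT_alpha (j : ZMod q) (f : FF N) :
    sigmaT N q j (heckeAlphaBar Kbar N q f) = betaMer q (some j) (anBar N f) := by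
  rw [sigmaT_apply, anBar_alpha]

/-! ### Injectivity of `j ↦ σ_j` -/

/-- the point `2 q i` of the upper half plane. -/
def basePt (q : ℕ) [hq : Fact q.Prime] : ℍ :=
  ⟨(2 * (q : ℝ) : ℝ) * Complex.I, by
    have hq0 : (0 : ℝ) < q := by exact_mod_cast hq.out.pos
    simp only [Complex.mul_im, Complex.ofReal_re, Complex.I_im, Complex.ofReal_im, Complex.I_re]
    nlinarith⟩

theorem coe_basePt : ((basePt q : ℍ) : ℂ) = (2 * (q : ℝ) : ℝ) * Complex.I := rfl

theorem im_basePt : (basePt q).im = 2 * (q : ℝ) := by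
  show ((2 * (q : ℝ) : ℝ) * Complex.I : ℂ).im = 2 * (q : ℝ)
  simp

theorem re_basePt : (basePt q).re = 0 := by
  show ((2 * (q : ℝ) : ℝ) * Complex.I : ℂ).re = 0
  simp

/-- If `γ w = w'` with `Im w = Im w' > 1` then the lower left entry of `γ` vanishes. -/
theorem lower_left_eq_zero {γ : SL(2, ℤ)} {w w' : ℍ} (h : γ • w = w') (him : w.im = w'.im)
    (h1 : 1 < w.im) : γ 1 0 = 0 := by
  by_contra hc
  have h2 := ModularGroup.im_smul_eq_div_normSq γ w
  rw [h, ← him] at h2
  have hpos : 0 < w.im := w.im_pos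
  have hns : Complex.normSq (UpperHalfPlane.denom γ w) = 1 := by
    have hne : Complex.normSq (UpperHalfPlane.denom γ w) ≠ 0 := by
      intro h0
      rw [h0, div_zero] at h2
      exact hpos.ne' h2
    field_simp at h2
    nlinarith
  rw [ModularGroup.denom_apply, Complex.normSq_apply] at hns
  have hc1 : (1 : ℝ) ≤ ((γ 1 0 : ℤ) : ℝ) ^ 2 := by
    have : (1 : ℤ) ≤ (γ 1 0) ^ 2 := by
      have := Int.one_le_abs hc
      nlinarith [abs_mul_abs_self (γ 1 0), sq_abs (γ 1 0)]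
    exact_mod_cast this
  have him' : (((γ 1 0 : ℤ) : ℂ) * (w : ℂ) + ((γ 1 1 : ℤ) : ℂ)).im = ((γ 1 0 : ℤ) : ℝ) * w.im := by
    simp
  rw [him'] at hns
  nlinarith [mul_self_nonneg (((γ 1 0 : ℤ) : ℂ) * (w : ℂ) + ((γ 1 1 : ℤ) : ℂ)).re,
    mul_pos hpos hpos, mul_self_nonneg (((γ 1 0 : ℤ) : ℝ) * w.im)]

theorem sigmaT_injective : Function.Injective (sigmaT N q) := by
  intro j k h
  have hq0 : (q : ℝ) ≠ 0 := by exact_mod_cast hq.out.ne_zero
  have hqC : (q : ℂ) ≠ 0 := by exact_mod_cast hq.out.ne_zero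
  haveI : NeZero (1 : ℕ) := ⟨one_ne_zero⟩
  -- evaluate on the `j`-function
  have h2 := DFunLike.congr_fun h ((jdR (N * q) 1 (one_dvd _) : Rsub (N * q)) : FF (N * q))
  rw [sigmaT_apply, sigmaT_apply, anBar_coe] at h2
  unfold betaMer at h2
  rw [glMer_algebraMap, glMer_algebraMap] at h2
  have h3 := IsFractionRing.injective HolH MerH h2
  have h4 := congrFun (congrArg Subtype.val h3) (basePt q)
  have h5 : realize (N * q) (jdR (N * q) 1 (one_dvd _)) = jdFun 1 := realize_jdF (N * q) 1 (one_dvd _)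
  have hscale : ∀ w : ℍ, scaleH 1 w = w := by
    intro w
    apply UpperHalfPlane.ext
    rw [coe_scaleH]
    simp
  have h6 : jFun (glBeta q (some j) • basePt q) = jFun (glBeta q (some k) • basePt q) := by
    have e : ∀ i : ZMod q, ((glHom (glBeta q (some i)) (det_glBeta_pos (some i))
        ⟨realize (N * q) (jdR (N * q) 1 (one_dvd _)), realize_mem_HolH (N * q) _⟩ : HolH) : ℍ → ℂ)
          (basePt q) = jFun (glBeta q (some i) • basePt q) := by
      intro i
      rw [coe_glHom]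
      show realize (N * q) (jdR (N * q) 1 (one_dvd _)) (glBeta q (some i) • basePt q) = _
      rw [h5]
      show jFun (scaleH 1 _) = _
      rw [hscale]
    rw [← e j, ← e k]
    exact h4
  obtain ⟨γ, hγ⟩ := (jFun_eq_iff _ _).mp h6
  -- both points have imaginary part `2`
  have him : ∀ i : ZMod q, (glBeta q (some i) • basePt q : ℍ).im = 2 := by
    intro i
    rw [im_glBeta_some_smul, im_basePt]
    field_simp
  have hc : γ 1 0 = 0 :=
    lower_left_eq_zero hγ ((him j).trans (him k).symm) (by rw [him j]; norm_num)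
  -- the relation in coordinates
  have hcoe := congrArg (UpperHalfPlane.coe) hγ
  rw [coe_smul_eq_moebC, coe_glBeta_some_smul, coe_glBeta_some_smul] at hcoe
  unfold moebC at hcoe
  rw [hc] at hcoe
  have hdet : γ 0 0 * γ 1 1 = 1 := by
    have := γ.2
    rw [Matrix.det_fin_two, hc, mul_zero, sub_zero] at this
    exact this
  have hd0 : ((γ 1 1 : ℤ) : ℂ) ≠ 0 := by
    intro h0
    have : (γ 1 1 : ℤ) = 0 := by exact_mod_cast h0
    rw [this, mul_zero] at hdet
    exact zero_ne_one hdet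
  simp only [Int.cast_zero, zero_mul, zero_add] at hcoe
  rw [div_eq_iff hd0] at hcoe
  -- clear denominators
  have hmain : ((γ 0 0 : ℤ) : ℂ) * ((basePt q : ℂ) + (j.val : ℂ)) + ((γ 0 1 : ℤ) : ℂ) * (q : ℂ)
      = ((γ 1 1 : ℤ) : ℂ) * ((basePt q : ℂ) + (k.val : ℂ)) := by
    field_simp at hcoe
    linear_combination hcoe
  have hIm := congrArg Complex.im hmain
  have hRe := congrArg Complex.re hmain
  rw [coe_basePt] at hIm hRe
  simp only [Complex.add_im, Complex.mul_im, Complex.intCast_re, Complex.intCast_im,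
    Complex.ofReal_re, Complex.ofReal_im, Complex.I_re, Complex.I_im, Complex.natCast_re,
    Complex.natCast_im, Complex.add_re, Complex.mul_re, mul_zero, zero_mul, add_zero, sub_zero,
    mul_one, zero_add] at hIm hRe
  -- `a = d`
  have had : (γ 0 0 : ℤ) = γ 1 1 := by
    have h2q : (2 * (q : ℝ)) ≠ 0 := by positivity
    have : ((γ 0 0 : ℤ) : ℝ) = ((γ 1 1 : ℤ) : ℝ) := by
      have := hIm
      have e : ((γ 0 0 : ℤ) : ℝ) * (2 * (q : ℝ)) = ((γ 1 1 : ℤ) : ℝ) * (2 * (q : ℝ)) := by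
        linarith
      exact mul_right_cancel₀ h2q e
    exact_mod_cast this
  have hRe' : (γ 0 0 : ℤ) * (j.val : ℤ) + γ 0 1 * (q : ℤ) = γ 1 1 * (k.val : ℤ) := by
    have : (((γ 0 0 : ℤ) * (j.val : ℤ) + γ 0 1 * (q : ℤ) : ℤ) : ℝ) = ((γ 1 1 * (k.val : ℤ) : ℤ) : ℝ) := by
      push_cast
      linarith
    exact_mod_cast this
  rw [← had] at hRe' hdet
  have hfin : ((j.val : ℤ) : ZMod q) = ((k.val : ℤ) : ZMod q) := by
    have h7 : γ 0 0 * (γ 0 0 * (j.val : ℤ) + γ 0 1 * (q : ℤ)) = γ 0 0 * (γ 0 0 * (k.val : ℤ)) := by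
      rw [hRe']
    have h8 : (j.val : ℤ) + γ 0 0 * γ 0 1 * (q : ℤ) = (k.val : ℤ) := by
      have e1 : γ 0 0 * (γ 0 0 * (j.val : ℤ) + γ 0 1 * (q : ℤ))
          = (γ 0 0 * γ 0 0) * (j.val : ℤ) + γ 0 0 * γ 0 1 * (q : ℤ) := by ring
      have e2 : γ 0 0 * (γ 0 0 * (k.val : ℤ)) = (γ 0 0 * γ 0 0) * (k.val : ℤ) := by ring
      rw [e1, e2, hdet, one_mul, one_mul] at h7
      exact h7
    rw [← h8]
    push_cast
    rw [ZMod.natCast_self, mul_zero, add_zero]
  have hj : ((j.val : ℤ) : ZMod q) = j := by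
    rw [Int.cast_natCast, ZMod.natCast_zmod_val]
  have hk : ((k.val : ℤ) : ZMod q) = k := by
    rw [Int.cast_natCast, ZMod.natCast_zmod_val]
  rw [hj, hk] at hfin
  exact hfin

/-! ### The `Setup` -/

variable (hqN : q ∣ N)

/-- **The double coset relation in `MerH`** for the finite representatives and `γ ∈ Γ₀(N)`:
`(h ∘ β_j) ∘ γ = (h ∘ cocU γ j) ∘ β_{permU γ j}`. -/
theorem slMer_betaMer_some (γ : Gamma0 N) (j : ZMod q) (h : MerH) :
    slMer (γ : SL(2, ℤ)) (betaMer q (some j) h)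
      = betaMer q (some (permU γ j)) (slMer (cocU hqN γ j : SL(2, ℤ)) h) := by
  rw [slMer_betaMer, some_permU hqN, coe_cocU]

/-- the concrete instance of the abstract analytic interface for the TRANSPOSED pair `(β, α)`,
`q ∣ N`. -/
def setupT : Setup (K := Kbar) (heckeBetaBar Kbar N q) (heckeAlphaBar Kbar N q)
    (fun γ : Gamma0 N => (permU γ : Equiv.Perm (ZMod q)))
    (fun (γ : Gamma0 N) (j : ZMod q) => cocU hqN γ j) MerH ℂˣ where
  an := anBar N
  σ := sigmaT N q
  R := fun γ => slMer (γ : SL(2, ℤ))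
  B := fun j => betaMer q (some j)
  c := constHom
  σ_alpha := sigmaT_beta
  σ_beta := sigmaT_alpha
  σ_inj := sigmaT_injective
  card_eq := by
    rw [Fermat.Agent.T1B.KumU6.Inputs.finrankAlong_beta_dvd N q Kbar hq.out hqN, ZMod.card]
  R_B := fun γ j h => slMer_betaMer_some hqN γ j h
  R_c := fun γ a => slMer_const (γ : SL(2, ℤ)) (a : ℂ)
  B_c := fun j a => betaMer_const (some j) (a : ℂ)

end Fermat.Agent.T1B.KumU78.Analytic
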