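/-
T1B (cl) = KUM-U2 TRANSPOSED (helper78), part (B): **the Kummer map on `J₀(N)(ℚbar)[n]` intertwines the
TRANSPOSED Hecke correspondence `U_q = β_* α^*` (Prelude `heckePic0BarTranspose`, `q` prime, `q ∣ N`)
with the classical operator `U_q` on characters of `Γ₀(N)`** (representatives `!![1, j; 0, q]`,
cocycle `UqOp28.cocU`):

  `κ (U_q x) γ = ∏ j : ZMod q, κ x (cocU γ j)`,   i.e.  `κ ∘ U_q = UqX ∘ κ`   (`Lift69.UqTate.UqX`).

The theorems are stated for `heckePic0BarTranspose hα hβ hFI hfin hN` with ARBITRARY proofs of the side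
conditions, so they apply verbatim to `Degen21.UFam.uBar / uTwo` (helper21), to `Hecke3.delta1_heckeU`
(helper3) and to any other packaging of `β_* α^*`.

This is the `q ∣ N` companion, for the other orientation, of `KumU6.kumQAdd_heckeOperatorBar_dvd`
(helper6: `α_* β^*` vs `udcX`).
-/
import Fermat.Agent.ES.HEQ.KummerHeckeQ19
import Fermat.Agent.T1B.KumU78.Analytic
import Fermat.Agent.T1B.Lift69.UqTate

set_option autoImplicit false
set_option linter.style.haveILetI false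
set_option linter.unusedSectionVars false

open UpperHalfPlane hiding I
open scoped Manifold MatrixGroups
open CongruenceSubgroup AlgebraicCurve

noncomputable section

namespace Fermat.Agent.T1B.KumU78

open Fermat.Agent.X0 Fermat.Agent.X0.SurjPoint Fermat.Agent.ES.KUM
open Fermat.Agent.ES.HEQ.DoubleCoset27 Fermat.Agent.ES.HEQ.BetaMer19
open Fermat.Agent.ES.HEQ.RealBar19 Fermat.Agent.ES.HEQ.KummerHeckeAbs19
open Fermat.Agent.ES.HEQ.KummerHeckeMain19 Fermat.Agent.ES.HEQ.KummerHeckeQ19 ModularCurve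
open Fermat.Agent.ES.J.TateChar11 Fermat.Agent.ES.J.TateModule13
open Fermat.Agent.ES.LR.UqOp28
open Fermat.Agent.T1B.Lift69.UqTate
open Fermat.Agent.T1B.KumU78.Analytic

section Main

variable {N q : ℕ} [NeZero N] [hq : Fact q.Prime] (hqN : q ∣ N)
variable [HasPrincipalDivisors Kbar (FF (N * q))]
variable (hα : HeckeAlphaBarIntegral Kbar N q) (hβ : HeckeBetaBarIntegral Kbar N q)
  (hFI : FundamentalIdentityAlong Kbar (heckeAlphaBar Kbar N q) hα)
  (hfin : FiniteAlong Kbar (heckeBetaBar Kbar N q))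
  (hN : NormFormulaAlong Kbar (heckeBetaBar Kbar N q) hfin)

/-- `U_q = β_* α^*` preserves the `n`-torsion. -/
theorem transpose_mem_torsion (n : ℕ) (x : ↥(Pic0.torsion Kbar (FF N) n)) :
    heckePic0BarTranspose hα hβ hFI hfin hN (x : Pic0 Kbar (FF N)) ∈ Pic0.torsion Kbar (FF N) n := by
  rw [Pic0.mem_torsion, ← map_zsmul, Pic0.mem_torsion.mp x.2, map_zero]

/-- **`U_q`-equivariance of the Kummer map at `q ∣ N`**, for any map `κ` satisfying the
characterisation `IsKummerMap`. -/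
theorem kummer_transpose_dvd {n : ℕ}
    {κ : ↥(Pic0.torsion Kbar (FF N) n) → (↥(Gamma0 N) →* ℂˣ)}
    (hκ : IsKummerMap N n κ) (x : ↥(Pic0.torsion Kbar (FF N) n)) :
    κ ⟨heckePic0BarTranspose hα hβ hFI hfin hN (x : Pic0 Kbar (FF N)),
        transpose_mem_torsion hα hβ hFI hfin hN n x⟩ = UqMul hqN (κ x) := by
  classical
  obtain ⟨D, f, hD, hf, hDf⟩ := exists_rep_div n x
  obtain ⟨⟨h, hh0, hhn⟩, hchar⟩ := hκ x D f hD hf hDf
  -- the witness at `x`
  have w : Witness (setupT hqN) n f h (fun γ => κ x γ) := ⟨hhn, fun γ => hchar h hh0 hhn γ⟩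
  have w' := w.hecke hfin
  -- the Hecke transform
  set DT : Divisor.degZero (K := Kbar) (F := FF N) :=
    Pic0.degZeroCorrespondence (heckeAlphaBar Kbar N q) (heckeBetaBar Kbar N q) hα hβ hFI D with hDT
  have hTx : Pic0.mk DT = heckePic0BarTranspose hα hβ hFI hfin hN (x : Pic0 Kbar (FF N)) := by
    rw [← hD]
    rfl
  have hfT : normAlong (heckeBetaBar Kbar N q) (heckeAlphaBar Kbar N q f) ≠ 0 :=
    normAlong_ne_zero _ hfin ((map_ne_zero _).mpr hf)
  have hDTf : ∀ v : Place Kbar (FF N), ((n : ℤ) • (DT : Divisor Kbar (FF N))) v =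
      v.ord (normAlong (heckeBetaBar Kbar N q) (heckeAlphaBar Kbar N q f)) := by
    intro v
    have h1 : ((n : ℤ) • (DT : Divisor Kbar (FF N))) =
        Divisor.correspondence (heckeAlphaBar Kbar N q) (heckeBetaBar Kbar N q) hα hβ
          ((n : ℤ) • (D : Divisor Kbar (FF N))) := by
      rw [map_zsmul]
      rfl
    rw [h1]
    exact correspondence_apply_eq_ord _ _ hα hβ hfin hN hf hDf v
  obtain ⟨-, hchar'⟩ := hκ ⟨heckePic0BarTranspose hα hβ hFI hfin hN (x : Pic0 Kbar (FF N)),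
    transpose_mem_torsion hα hβ hFI hfin hN n x⟩ DT _ hTx hfT hDTf
  have hroot0 : heckeRoot (setupT hqN) h ≠ 0 := heckeRoot_ne_zero _ hh0
  ext1 γ
  have e1 := hchar' _ hroot0 w'.pow γ
  have e2 := w'.smul γ
  have e3 : constHom (κ ⟨heckePic0BarTranspose hα hβ hFI hfin hN (x : Pic0 Kbar (FF N)),
      transpose_mem_torsion hα hβ hFI hfin hN n x⟩ γ) = constHom (∏ j, κ x (cocU hqN γ j)) :=
    mul_right_cancel₀ hroot0 (e1.symm.trans e2)
  rw [UqMul_apply]
  exact constHom_injective e3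

end Main

section Q

variable {N q : ℕ} [NeZero N] [hq : Fact q.Prime] (hqN : q ∣ N)
variable [HasPrincipalDivisors Kbar (FF (N * q))]
variable (hα : HeckeAlphaBarIntegral Kbar N q) (hβ : HeckeBetaBarIntegral Kbar N q)
  (hFI : FundamentalIdentityAlong Kbar (heckeAlphaBar Kbar N q) hα)
  (hfin : FiniteAlong Kbar (heckeBetaBar Kbar N q))
  (hN : NormFormulaAlong Kbar (heckeBetaBar Kbar N q) hfin)
variable (n : ℕ) [NeZero n] [Finite (Pic0.torsion ℂ (FC N) n)]

/-- **KUM-U2 transposed, multiplicative form**: the Kummer map `κ_n = kumCharOf ∘ torsionEquivC` on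
`J₀(N)(ℚbar)[n]` intertwines `β_* α^*` at `q ∣ N` with `UqMul` on characters. -/
theorem kumQ_transpose_dvd (x : ↥(Pic0.torsion Kbar (FF N) n))
    (hx : heckePic0BarTranspose hα hβ hFI hfin hN (x : Pic0 Kbar (FF N)) ∈
      Pic0.torsion Kbar (FF N) n) :
    kumQ N n ⟨heckePic0BarTranspose hα hβ hFI hfin hN (x : Pic0 Kbar (FF N)), hx⟩ =
      UqMul hqN (kumQ N n x) :=
  kummer_transpose_dvd hqN hα hβ hFI hfin hN (isKummerMap_kumQ N n) x

/-- **KUM-U2 transposed, additive form** (`UqX` of `Lift69.UqTate`). -/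
theorem kumQAdd_transpose_dvd (x : ↥(Pic0.torsion Kbar (FF N) n))
    (hx : heckePic0BarTranspose hα hβ hFI hfin hN (x : Pic0 Kbar (FF N)) ∈
      Pic0.torsion Kbar (FF N) n) :
    kumQAdd N n ⟨heckePic0BarTranspose hα hβ hFI hfin hN (x : Pic0 Kbar (FF N)), hx⟩ =
      UqX hqN (kumQAdd N n x) := by
  apply Additive.toMul.injective
  exact kumQ_transpose_dvd hqN hα hβ hFI hfin hN n x hx

/-- the `∏`-form. -/
theorem toMul_kumQAdd_transpose_dvd (x : ↥(Pic0.torsion Kbar (FF N) n))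
    (hx : heckePic0BarTranspose hα hβ hFI hfin hN (x : Pic0 Kbar (FF N)) ∈
      Pic0.torsion Kbar (FF N) n) (γ : Gamma0 N) :
    Additive.toMul
        (kumQAdd N n ⟨heckePic0BarTranspose hα hβ hFI hfin hN (x : Pic0 Kbar (FF N)), hx⟩) γ =
      ∏ j : ZMod q, Additive.toMul (kumQAdd N n x) (cocU hqN γ j) := by
  rw [kumQAdd_transpose_dvd hqN hα hβ hFI hfin hN n x hx, UqX_apply]

end Q

section Tors

variable {N : ℕ} [NeZero N] (q : Nat.Primes) (hqN : (q : ℕ) ∣ N)
variable [NeZero (q : ℕ)] [HasPrincipalDivisors Kbar (FF (N * q))]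
variable (hα : HeckeAlphaBarIntegral Kbar N q) (hβ : HeckeBetaBarIntegral Kbar N q)
  (hFI : FundamentalIdentityAlong Kbar (heckeAlphaBar Kbar N q) hα)
  (hfin : FiniteAlong Kbar (heckeBetaBar Kbar N q))
  (hN : NormFormulaAlong Kbar (heckeBetaBar Kbar N q) hfin)
variable (n : ℕ) [NeZero n] [Finite (Pic0.torsion ℂ (FC N) n)]

/-- **KUM-U2 transposed on `tors (JZero N) n`**, `q : Nat.Primes`, `q ∣ N`: the companion of
`KumU6.kumQAdd_heckeOperatorBar_dvd` for the orientation `β_* α^*`. -/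
theorem kumQAdd_transposeBar_dvd (x : ↥(tors (JZero N) n))
    (hx : heckePic0BarTranspose hα hβ hFI hfin hN (x : JZero N) ∈ tors (JZero N) n) :
    haveI : Fact (q : ℕ).Prime := ⟨q.2⟩
    kumQAdd N n ⟨heckePic0BarTranspose hα hβ hFI hfin hN (x : JZero N), hx⟩ =
      UqX hqN (kumQAdd N n x) := by
  haveI : Fact (q : ℕ).Prime := ⟨q.2⟩
  exact kumQAdd_transpose_dvd hqN hα hβ hFI hfin hN n x hx

end Tors

end Fermat.Agent.T1B.KumU78
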