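/-
T1B (cl) = KUM-U2 TRANSPOSED (helper78), part (C): the **KumUq contract** for the `U`-family of the T1B
chain (`Degen21.UFam.uBar N q = β_* α^*`, `uTwo`), against the unconditional Kummer system
`KummerSystemFinal18.kummerSystemJ p N` of `J₀(N)(ℚbar)` (`κ_k = kumQAdd N (p ^ k)`):

  `κ_k (U_q x) = UqX (κ_k x)`     (`q ∣ N`; `UqX = Lift69.UqTate.UqX`, cocycle `UqOp28.cocU`).

This is literally the hypothesis `hf` of `Lift69.UqTate.tateEquiv_map_Uq / map_iota_Uq` with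
`f := (uBar N q).toAddMonoidHom`, and (at `q = 2`) helper7's `KumUq uTwo` (`Lift7/OfKummer`).
-/
import Fermat.Agent.ES.J.KummerSystemFinal18
import Fermat.Agent.T1B.KumU78.Main
import Fermat.Agent.T1B.Degen21.UFam

set_option autoImplicit false
set_option linter.style.haveILetI false
set_option linter.unusedSectionVars false

open CongruenceSubgroup AlgebraicCurve ModularCurve

noncomputable section

namespace Fermat.Agent.T1B.KumU78

open Fermat.Agent.X0 Fermat.Agent.ES.KUM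
open Fermat.Agent.ES.HEQ.KummerHeckeQ19
open Fermat.Agent.ES.J.TateChar11 Fermat.Agent.ES.J.TateModule13
open Fermat.Agent.ES.J.KummerSystemFinal18
open Fermat.Agent.ES.LR.UqOp28
open Fermat.Agent.T1B.Lift69.UqTate
open Fermat.Agent.T1B.DivNorm27 Fermat.Agent.ES.HECKE.InputsMain19
open Fermat.Agent.T1B.Degen21.UFam Fermat.Agent.T1B.Top68

attribute [local instance] finiteTorsion neZero_of_prime

variable (p : ℕ) [hp : Fact p.Prime] (N : ℕ) [NeZero N]

/-- **KumUq for `uBar N q`, `q ∣ N`**, at every finite level `n`. -/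
theorem kumQAdd_uBar (q : Nat.Primes) (hqN : (q : ℕ) ∣ N) (n : ℕ) [NeZero n]
    (x : ↥(tors (JZero N) n)) (hx : uBar N q (x : JZero N) ∈ tors (JZero N) n) :
    haveI : Fact (q : ℕ).Prime := ⟨q.2⟩
    kumQAdd N n ⟨uBar N q (x : JZero N), hx⟩ = UqX hqN (kumQAdd N n x) := by
  haveI : Fact (q : ℕ).Prime := ⟨q.2⟩
  haveI : NeZero (q : ℕ) := ⟨q.2.ne_zero⟩
  haveI := hasPrincipalDivisors_level N q
  exact kumQAdd_transposeBar_dvd q hqN (heckeAlphaBarIntegral_all N q q.2)
    (heckeBetaBarIntegral_all N q q.2) (fundamentalIdentityAlong_alpha_all N q q.2)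
    (finiteAlong_beta_all N q q.2) (normFormulaAlong_beta_all N q q.2) n x hx

/-- **KumUq for `uBar N q`** in the Kummer system of `J₀(N)(ℚbar)`: the hypothesis `hf` of
`Lift69.UqTate.map_iota_Uq` for `f := (uBar N q).toAddMonoidHom`. -/
theorem kummerSystemJ_uBar (q : Nat.Primes) (hqN : (q : ℕ) ∣ N) (k : ℕ)
    (x : ↥(tors (JZero N) (p ^ k))) (hfx : uBar N q (x : JZero N) ∈ tors (JZero N) (p ^ k)) :
    haveI : Fact (q : ℕ).Prime := ⟨q.2⟩
    (kummerSystemJ p N).κ k ⟨uBar N q (x : JZero N), hfx⟩ =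
      UqX hqN ((kummerSystemJ p N).κ k x) :=
  kumQAdd_uBar N q hqN (p ^ k) x hfx

/-- **KumUq for `uTwo`** (the `U_2`-family of `Top68/Global`), helper7's contract `KumUq uTwo`. -/
theorem kumUq_uTwo (h2N : 2 ∣ N) (k : ℕ) (x : ↥(tors (JZero N) (p ^ k)))
    (hfx : uTwo N (x : JZero N) ∈ tors (JZero N) (p ^ k)) :
    (kummerSystemJ p N).κ k ⟨uTwo N (x : JZero N), hfx⟩ =
      UqX (q := 2) (hq := ⟨Nat.prime_two⟩) h2N ((kummerSystemJ p N).κ k x) :=
  kummerSystemJ_uBar p N ⟨2, Nat.prime_two⟩ h2N k x hfx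

end Fermat.Agent.T1B.KumU78
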