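/-
T1B (helper78): BRIDGES between the three landed names of the classical `U_q = β_* α^*`
(Prelude `heckePic0BarTranspose`; all side conditions are propositions):

* `Degen21.UFam.uBar N q` / `uTwo` (helper21; total in the prime; the `U`-family of the T1B chain),
* `KumU48.heckeUBar N q hqN` / `heckeUFamily` (helper48; `q ∣ N`; `0` at odd level for the family),
* `KumU6.heckeUBar N q` (helper6; total, `dite` on the inputs).

Consequences: Galois equivariance of `uBar N q` (`q ∣ N`) and of `uTwo` at even level (from helper48's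
`heckeUBar_smul`).
-/
import Fermat.Agent.T1B.KumU78.KumUq
import Fermat.Agent.T1B.KumU48.Bridge6

set_option autoImplicit false
set_option linter.style.haveILetI false
set_option linter.unusedSectionVars false

open CongruenceSubgroup AlgebraicCurve ModularCurve

noncomputable section

namespace Fermat.Agent.T1B.KumU78

open Fermat.Agent.T1B.DivNorm27 Fermat.Agent.ES.HECKE.InputsMain19
open Fermat.Agent.T1B.Degen21.UFam Fermat.Agent.T1B.Top68

variable (N : ℕ) [NeZero N]

/-- `uBar N q = KumU6.heckeUBar N q` for EVERY prime `q` (both are `β_* α^*`). -/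
theorem uBar_eq_kumU6 (q : Nat.Primes) :
    uBar N q = Fermat.Agent.T1B.KumU6.heckeUBar N q := by
  haveI : NeZero (q : ℕ) := ⟨q.2.ne_zero⟩
  haveI := hasPrincipalDivisors_level N q
  apply LinearMap.ext
  intro x
  have h := Fermat.Agent.T1B.KumU6.heckeUAlong_eq (heckeAlphaBarIntegral_all N q q.2)
    (heckeBetaBarIntegral_all N q q.2) (fundamentalIdentityAlong_alpha_all N q q.2)
    (finiteAlong_beta_all N q q.2) (normFormulaAlong_beta_all N q q.2)
  exact (DFunLike.congr_fun h x).symm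

/-- `uBar N ⟨q, _⟩ = KumU48.heckeUBar N q hqN` for `q ∣ N`. -/
theorem uBar_eq_kumU48 (q : ℕ) [hq : Fact q.Prime] (hqN : q ∣ N) :
    uBar N ⟨q, hq.out⟩ = Fermat.Agent.T1B.KumU48.heckeUBar N q hqN := by
  rw [uBar_eq_kumU6]
  exact Fermat.Agent.T1B.KumU48.heckeUBar_eq_kumU6 N q hqN

/-- **even-level bridge**: `uTwo N = KumU48.heckeUFamily N` when `2 ∣ N`. -/
theorem uTwo_eq_heckeUFamily (h2 : 2 ∣ N) :
    uTwo N = Fermat.Agent.T1B.KumU48.heckeUFamily N := by
  rw [Fermat.Agent.T1B.KumU48.heckeUFamily_eq_kumU6 N h2, uTwo_apply, uBar_eq_kumU6]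

/-- `uTwo N = KumU6.heckeUBar N 2` at EVERY level. -/
theorem uTwo_eq_kumU6 :
    uTwo N = Fermat.Agent.T1B.KumU6.heckeUBar N (⟨2, Nat.prime_two⟩ : Nat.Primes) := by
  rw [uTwo_apply, uBar_eq_kumU6]

/-- **`U_q` commutes with `Gal(ℚ̄/ℚ)`** (`q ∣ N`), for the chain's `uBar`. -/
theorem uBar_smul (q : Nat.Primes) (hqN : (q : ℕ) ∣ N)
    (σ : AlgebraicClosure ℚ ≃ₐ[ℚ] AlgebraicClosure ℚ) (x : JZero N) :
    uBar N q (σ • x) = σ • uBar N q x := by
  haveI : Fact (q : ℕ).Prime := ⟨q.2⟩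
  have e : uBar N q = Fermat.Agent.T1B.KumU48.heckeUBar N q hqN := uBar_eq_kumU48 N (q : ℕ) hqN
  rw [e]
  exact Fermat.Agent.T1B.KumU48.heckeUBar_smul N q hqN σ x

/-- **`U_2` commutes with `Gal(ℚ̄/ℚ)`** at even level, for the chain's `uTwo`. -/
theorem uTwo_smul (h2 : 2 ∣ N)
    (σ : AlgebraicClosure ℚ ≃ₐ[ℚ] AlgebraicClosure ℚ) (x : JZero N) :
    uTwo N (σ • x) = σ • uTwo N x :=
  uBar_smul N ⟨2, Nat.prime_two⟩ h2 σ x

end Fermat.Agent.T1B.KumU78
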